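/-
S26lib / CechRR / Basic (helper9).
The two-chart Čech form of Riemann's theorem on a curve, in the Prelude language
(`AlgebraicCurve.Place`, `Divisor`, `riemannRochSpace`) on top of `S18lib.IsCurveOfGenus`.

* `lamOff S E` : the sections of `O(E)` over the complement of the set `S` of places;
* `ind S`, `tw E S₁ S₂ a b = E + a • ind S₁ + b • ind S₂`;
* `rr_sup_eq` : `L(E + A) ⊔ L(E + B) = L(E + A + B)` for `deg E > 2γ - 2` and effective `A`, `B`
  with disjoint supports.
-/
import Mathlib
import Fermat.Agent.S18lib.Cech.CurveBasics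
import Fermat.Agent.S18lib.Setup.DivLemmas

set_option autoImplicit false

noncomputable section

namespace Fermat.Agent.S26lib.CechRR

open AlgebraicCurve Fermat.Agent.S18lib Fermat.Agent.S18lib.Cech

variable {K F : Type*} [Field K] [Field F] [Algebra K F]

/-! ### sections over the complement of a set of places -/

/-- the sections of `O(E)` over the complement of the set `S` of places -/
def lamOff (S : Set (Place K F)) (E : Divisor K F) : Submodule K F where
  carrier := {f | ∀ v : Place K F, v ∉ S → v.adicValuation f ≤ WithZero.exp (E v)}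
  zero_mem' := by
    intro v _
    simp
  add_mem' := by
    intro f g hf hg v hv
    exact (Valuation.map_add _ _ _).trans (max_le (hf v hv) (hg v hv))
  smul_mem' := by
    intro c f hf v hv
    show v.adicValuation (c • f) ≤ WithZero.exp (E v)
    rw [Algebra.smul_def, map_mul]
    exact (mul_le_of_le_one_left' (v.adicValuation_algebraMap_le_one c)).trans (hf v hv)

theorem mem_lamOff_iff {S : Set (Place K F)} {E : Divisor K F} {f : F} :
    f ∈ lamOff S E ↔ ∀ v : Place K F, v ∉ S → f = 0 ∨ -E v ≤ v.ord f := by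
  show (∀ v : Place K F, v ∉ S → v.adicValuation f ≤ WithZero.exp (E v)) ↔ _
  exact forall_congr' fun v => imp_congr_right fun _ => v.adicValuation_le_exp_iff

theorem mem_lamOff_of_ne {S : Set (Place K F)} {E : Divisor K F} {f : F} (hf : f ≠ 0) :
    f ∈ lamOff S E ↔ ∀ v : Place K F, v ∉ S → -E v ≤ v.ord f := by
  rw [mem_lamOff_iff]
  exact forall_congr' fun v => imp_congr_right fun _ => or_iff_right hf

theorem lamOff_empty (E : Divisor K F) : lamOff (∅ : Set (Place K F)) E = riemannRochSpace E := by
  ext f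
  rw [mem_lamOff_iff, mem_rr_iff]
  exact forall_congr' fun v => ⟨fun h => h (Set.notMem_empty v), fun h _ => h⟩

theorem lamOff_anti {S S' : Set (Place K F)} (h : S ⊆ S') (E : Divisor K F) :
    lamOff S E ≤ lamOff S' E := by
  intro f hf
  rw [mem_lamOff_iff] at hf ⊢
  exact fun v hv => hf v fun hv' => hv (h hv')

theorem rr_le_lamOff (S : Set (Place K F)) (E : Divisor K F) :
    riemannRochSpace E ≤ lamOff S E := by
  rw [← lamOff_empty]
  exact lamOff_anti (Set.empty_subset S) E

theorem lamOff_mono (S : Set (Place K F)) {E E' : Divisor K F} (h : ∀ v, v ∉ S → E v ≤ E' v) :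
    lamOff S E ≤ lamOff S E' := by
  intro f hf
  rw [mem_lamOff_iff] at hf ⊢
  intro v hv
  rcases hf v hv with h0 | h1
  · exact Or.inl h0
  · exact Or.inr (by have := h v hv; omega)

theorem lamOff_inf (S₁ S₂ : Set (Place K F)) (E : Divisor K F) :
    lamOff S₁ E ⊓ lamOff S₂ E = lamOff (S₁ ∩ S₂) E := by
  ext f
  rw [Submodule.mem_inf, mem_lamOff_iff, mem_lamOff_iff, mem_lamOff_iff]
  constructor
  · rintro ⟨h₁, h₂⟩ v hv
    by_cases hv₁ : v ∈ S₁
    · exact h₂ v fun hv₂ => hv ⟨hv₁, hv₂⟩
    · exact h₁ v hv₁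
  · intro h
    exact ⟨fun v hv => h v fun hv' => hv hv'.1, fun v hv => h v fun hv' => hv hv'.2⟩

/-- the kernel of the Čech differential is `L(E)` when the two charts cover the curve -/
theorem lamOff_inf_of_disjoint {S₁ S₂ : Set (Place K F)} (h : Disjoint S₁ S₂) (E : Divisor K F) :
    lamOff S₁ E ⊓ lamOff S₂ E = riemannRochSpace E := by
  rw [lamOff_inf, Set.disjoint_iff_inter_eq_empty.mp h, lamOff_empty]

/-! ### the reduced divisor of a finite set of places -/

/-- the reduced divisor `∑_{P ∈ S} P` -/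
def ind (S : Finset (Place K F)) : Divisor K F := ∑ P ∈ S, Finsupp.single P (1 : ℤ)

theorem ind_apply_of_mem {S : Finset (Place K F)} {v : Place K F} (hv : v ∈ S) : ind S v = 1 := by
  classical
  rw [ind, Finsupp.finsetSum_apply]
  simp [Finsupp.single_apply, hv]

theorem ind_apply_of_not_mem {S : Finset (Place K F)} {v : Place K F} (hv : v ∉ S) :
    ind S v = 0 := by
  classical
  rw [ind, Finsupp.finsetSum_apply]
  simp [Finsupp.single_apply, hv]

theorem ind_nonneg (S : Finset (Place K F)) (v : Place K F) : 0 ≤ ind S v := by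
  by_cases hv : v ∈ S
  · rw [ind_apply_of_mem hv]; exact zero_le_one
  · rw [ind_apply_of_not_mem hv]

theorem degree_ind (hdeg : ∀ v : Place K F, v.deg = 1) (S : Finset (Place K F)) :
    Divisor.degree (ind S) = S.card := by
  rw [ind, map_sum]
  simp [hdeg]

theorem ind_insert [DecidableEq (Place K F)] {S : Finset (Place K F)} {P : Place K F}
    (hP : P ∉ S) : ind (insert P S) = ind S + Finsupp.single P 1 := by
  rw [ind, Finset.sum_insert hP, add_comm]
  rfl

/-- the divisor `E + a • ∑_{S₁} P + b • ∑_{S₂} P` -/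
def tw (E : Divisor K F) (S₁ S₂ : Finset (Place K F)) (a b : ℕ) : Divisor K F :=
  E + a • ind S₁ + b • ind S₂

section tw

variable (E : Divisor K F) {S₁ S₂ : Finset (Place K F)} (a b : ℕ) {v : Place K F}

theorem tw_apply : tw E S₁ S₂ a b v = E v + a * ind S₁ v + b * ind S₂ v := by
  rw [tw, Finsupp.add_apply, Finsupp.add_apply, Finsupp.smul_apply, Finsupp.smul_apply,
    nsmul_eq_mul, nsmul_eq_mul]

theorem tw_apply_of_mem₁ (hdisj : Disjoint S₁ S₂) (hv : v ∈ S₁) :
    tw E S₁ S₂ a b v = E v + a := by
  rw [tw_apply, ind_apply_of_mem hv, ind_apply_of_not_mem (Finset.disjoint_left.mp hdisj hv)]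
  ring

theorem tw_apply_of_mem₂ (hdisj : Disjoint S₁ S₂) (hv : v ∈ S₂) :
    tw E S₁ S₂ a b v = E v + b := by
  rw [tw_apply, ind_apply_of_mem hv, ind_apply_of_not_mem (Finset.disjoint_right.mp hdisj hv)]
  ring

theorem tw_apply_of_not_mem (h₁ : v ∉ S₁) (h₂ : v ∉ S₂) : tw E S₁ S₂ a b v = E v := by
  rw [tw_apply, ind_apply_of_not_mem h₁, ind_apply_of_not_mem h₂]
  ring

theorem tw_zero_zero : tw E S₁ S₂ 0 0 = E := by
  rw [tw, zero_smul, zero_smul, add_zero, add_zero]

theorem le_tw (v : Place K F) : E v ≤ tw E S₁ S₂ a b v := by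
  rw [tw_apply]
  have h₁ := mul_nonneg (Int.natCast_nonneg a) (ind_nonneg S₁ v)
  have h₂ := mul_nonneg (Int.natCast_nonneg b) (ind_nonneg S₂ v)
  omega

theorem tw_le_tw {a b a' b' : ℕ} (ha : a ≤ a') (hb : b ≤ b') (v : Place K F) :
    tw E S₁ S₂ a b v ≤ tw E S₁ S₂ a' b' v := by
  rw [tw_apply, tw_apply]
  have h₁ := mul_le_mul_of_nonneg_right (Int.ofNat_le.mpr ha) (ind_nonneg S₁ v)
  have h₂ := mul_le_mul_of_nonneg_right (Int.ofNat_le.mpr hb) (ind_nonneg S₂ v)
  omega

theorem degree_tw (hdeg : ∀ v : Place K F, v.deg = 1) :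
    Divisor.degree (tw E S₁ S₂ a b) = Divisor.degree E + a * S₁.card + b * S₂.card := by
  rw [tw, map_add, map_add, map_nsmul, map_nsmul, degree_ind hdeg, degree_ind hdeg, nsmul_eq_mul,
    nsmul_eq_mul]

end tw

/-! ### the splitting lemma -/

section Curve

variable {γ : ℕ} (hF : IsCurveOfGenus K F γ)
include hF

/-- For `deg E > 2γ - 2` and effective `A`, `B` with disjoint supports,
`L(E + A) + L(E + B) = L(E + A + B)`. -/
theorem rr_sup_eq {E A B : Divisor K F} (hE : 2 * (γ : ℤ) - 2 < Divisor.degree E)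
    (hA : ∀ v, 0 ≤ A v) (hB : ∀ v, 0 ≤ B v) (hAB : ∀ v, A v = 0 ∨ B v = 0) :
    riemannRochSpace (E + A) ⊔ riemannRochSpace (E + B) = riemannRochSpace (E + A + B) := by
  have := hF.finiteDimensional
  have hle : riemannRochSpace (E + A) ⊔ riemannRochSpace (E + B) ≤
      riemannRochSpace (E + A + B) := by
    refine sup_le (rr_mono fun v => ?_) (rr_mono fun v => ?_)
    · simp only [Finsupp.add_apply]; have := hB v; omega
    · simp only [Finsupp.add_apply]; have := hA v; omega
  have hinf : riemannRochSpace (E + A) ⊓ riemannRochSpace (E + B) = riemannRochSpace E := by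
    refine le_antisymm ?_ (le_inf (rr_mono fun v => ?_) (rr_mono fun v => ?_))
    · intro f hf
      rw [Submodule.mem_inf] at hf
      refine mem_rr_of_mem_of_mem hf.1 hf.2 fun v => ?_
      simp only [Finsupp.add_apply]
      rcases hAB v with h | h
      · left; omega
      · right; omega
    · simp only [Finsupp.add_apply]; have := hA v; omega
    · simp only [Finsupp.add_apply]; have := hB v; omega
  have hdA := degree_nonneg_of_nonneg hA
  have hdB := degree_nonneg_of_nonneg hB
  have e0 := hF.riemann_eq E hE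
  have eA := hF.riemann_eq (E + A) (by rw [map_add]; omega)
  have eB := hF.riemann_eq (E + B) (by rw [map_add]; omega)
  have eAB := hF.riemann_eq (E + A + B) (by rw [map_add, map_add]; omega)
  rw [map_add] at eA eB
  rw [map_add, map_add] at eAB
  have hsum := Submodule.finrank_sup_add_finrank_inf_eq (riemannRochSpace (E + A))
    (riemannRochSpace (E + B))
  rw [hinf] at hsum
  refine Submodule.eq_of_le_of_finrank_eq hle ?_
  have hsum' : (Module.finrank K ↥(riemannRochSpace (E + A) ⊔ riemannRochSpace (E + B)) : ℤ) +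
      Module.finrank K (riemannRochSpace E) = Module.finrank K (riemannRochSpace (E + A)) +
      Module.finrank K (riemannRochSpace (E + B)) := by exact_mod_cast hsum
  have : (Module.finrank K ↥(riemannRochSpace (E + A) ⊔ riemannRochSpace (E + B)) : ℤ) =
      Module.finrank K (riemannRochSpace (E + A + B)) := by omega
  exact_mod_cast this

end Curve

end Fermat.Agent.S26lib.CechRR
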