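/-
S26lib / CechRR / H1 (helper9).
The two-chart Čech `H¹` of `O(E)` on a curve: for disjoint nonempty finite sets of places
`S₁`, `S₂` (the complements of the two charts),

  `dim_K  Λ₁₂(E) / (Λ₁(E) + Λ₂(E)) = ℓ(E) - deg E - 1 + γ`,

where `Λ_i(E) = lamOff S_i E`, `Λ₁₂(E) = lamOff (S₁ ∪ S₂) E`.  In particular the Čech differential
is surjective for every non-special `E`.
-/
import Fermat.Agent.S26lib.CechRR.Basic

set_option autoImplicit false

noncomputable section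

namespace Fermat.Agent.S26lib.CechRR

open AlgebraicCurve Fermat.Agent.S18lib Fermat.Agent.S18lib.Cech

variable {K F : Type*} [Field K] [Field F] [Algebra K F]

/-! ### linear algebra -/

/-- second isomorphism theorem, dimension form -/
theorem finrank_quotient_sup {V : Type*} [AddCommGroup V] [Module K V] (P Q T : Submodule K V)
    [FiniteDimensional K P] (hT : T = P ⊔ Q) :
    Module.Finite K (T ⧸ Q.comap T.subtype) ∧
      Module.finrank K (T ⧸ Q.comap T.subtype) + Module.finrank K ↥(P ⊓ Q) =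
        Module.finrank K P := by
  subst hT
  have e := LinearMap.quotientInfEquivSupQuotient P Q
  have e' := Submodule.comapSubtypeEquivOfLe (inf_le_left : P ⊓ Q ≤ P)
  refine ⟨Module.Finite.equiv e, ?_⟩
  rw [← e.finrank_eq, ← e'.finrank_eq]
  exact Submodule.finrank_quotient_add_finrank _

/-! ### bounding the poles on a finite set -/

theorem exists_bound (S : Finset (Place K F)) (E : Divisor K F) (f : F) :
    ∃ a : ℕ, ∀ v ∈ S, -E v - a ≤ v.ord f := by
  refine ⟨∑ v ∈ S, (E v + v.ord f).natAbs, fun v hv => ?_⟩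
  have h := Finset.single_le_sum (f := fun v => (E v + v.ord f).natAbs) (fun _ _ => Nat.zero_le _) hv
  have h' : ((E v + v.ord f).natAbs : ℤ) ≤ ((∑ v ∈ S, (E v + v.ord f).natAbs : ℕ) : ℤ) := by
    exact_mod_cast h
  omega

section tw

variable (E : Divisor K F) {S₁ S₂ : Finset (Place K F)}

theorem tw_tw (a b a' b' : ℕ) :
    tw (tw E S₁ S₂ a b) S₁ S₂ a' b' = tw E S₁ S₂ (a + a') (b + b') := by
  ext v
  simp only [tw_apply]
  push_cast
  ring

theorem rr_tw_le_lamOff_union (a b : ℕ) :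
    riemannRochSpace (tw E S₁ S₂ a b) ≤ lamOff ((S₁ : Set (Place K F)) ∪ S₂) E := by
  intro f hf
  rw [mem_rr_iff] at hf
  rw [mem_lamOff_iff]
  intro v hv
  have h₁ : v ∉ S₁ := fun h => hv (Or.inl h)
  have h₂ : v ∉ S₂ := fun h => hv (Or.inr h)
  have := hf v
  rwa [tw_apply_of_not_mem E a b h₁ h₂] at this

theorem rr_tw_le_lamOff_left (hdisj : Disjoint S₁ S₂) (a : ℕ) :
    riemannRochSpace (tw E S₁ S₂ a 0) ≤ lamOff (S₁ : Set (Place K F)) E := by
  intro f hf
  rw [mem_rr_iff] at hf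
  rw [mem_lamOff_iff]
  intro v hv
  have h₁ : v ∉ S₁ := hv
  have := hf v
  by_cases h₂ : v ∈ S₂
  · rwa [tw_apply_of_mem₂ E a 0 hdisj h₂, Nat.cast_zero, add_zero] at this
  · rwa [tw_apply_of_not_mem E a 0 h₁ h₂] at this

theorem rr_tw_le_lamOff_right (hdisj : Disjoint S₁ S₂) (b : ℕ) :
    riemannRochSpace (tw E S₁ S₂ 0 b) ≤ lamOff (S₂ : Set (Place K F)) E := by
  intro f hf
  rw [mem_rr_iff] at hf
  rw [mem_lamOff_iff]
  intro v hv
  have h₂ : v ∉ S₂ := hv
  have := hf v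
  by_cases h₁ : v ∈ S₁
  · rwa [tw_apply_of_mem₁ E 0 b hdisj h₁, Nat.cast_zero, add_zero] at this
  · rwa [tw_apply_of_not_mem E 0 b h₁ h₂] at this

theorem exists_mem_rr_tw_of_mem_lamOff_union (hdisj : Disjoint S₁ S₂) {f : F}
    (hf : f ∈ lamOff ((S₁ : Set (Place K F)) ∪ S₂) E) :
    ∃ a b : ℕ, f ∈ riemannRochSpace (tw E S₁ S₂ a b) := by
  obtain ⟨a, ha⟩ := exists_bound S₁ E f
  obtain ⟨b, hb⟩ := exists_bound S₂ E f
  refine ⟨a, b, ?_⟩
  rw [mem_lamOff_iff] at hf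
  rw [mem_rr_iff]
  intro v
  by_cases h₁ : v ∈ S₁
  · right
    rw [tw_apply_of_mem₁ E a b hdisj h₁]
    have := ha v h₁
    omega
  by_cases h₂ : v ∈ S₂
  · right
    rw [tw_apply_of_mem₂ E a b hdisj h₂]
    have := hb v h₂
    omega
  rw [tw_apply_of_not_mem E a b h₁ h₂]
  exact hf v fun h => h.elim h₁ h₂

/-- `L(E + a A₀) ∩ L(E + b B₀) = L(E)` -/
theorem rr_tw_inf (hdisj : Disjoint S₁ S₂) (a b : ℕ) :
    riemannRochSpace (tw E S₁ S₂ a 0) ⊓ riemannRochSpace (tw E S₁ S₂ 0 b) =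
      riemannRochSpace E := by
  refine le_antisymm ?_ (le_inf (rr_mono (le_tw E a 0)) (rr_mono (le_tw E 0 b)))
  intro f hf
  rw [Submodule.mem_inf] at hf
  refine mem_rr_of_mem_of_mem hf.1 hf.2 fun v => ?_
  by_cases h₁ : v ∈ S₁
  · right
    rw [tw_apply_of_mem₁ E 0 b hdisj h₁, Nat.cast_zero, add_zero]
  · left
    by_cases h₂ : v ∈ S₂
    · rw [tw_apply_of_mem₂ E a 0 hdisj h₂, Nat.cast_zero, add_zero]
    · rw [tw_apply_of_not_mem E a 0 h₁ h₂]

/-- `L(E + a A₀ + b B₀) ∩ (Λ₁(E) + Λ₂(E)) = L(E + a A₀) + L(E + b B₀)` -/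
theorem rr_tw_inf_sup (hdisj : Disjoint S₁ S₂) (a b : ℕ) :
    riemannRochSpace (tw E S₁ S₂ a b) ⊓
        (lamOff (S₁ : Set (Place K F)) E ⊔ lamOff (S₂ : Set (Place K F)) E) =
      riemannRochSpace (tw E S₁ S₂ a 0) ⊔ riemannRochSpace (tw E S₁ S₂ 0 b) := by
  refine le_antisymm ?_ (le_inf (sup_le (rr_mono (tw_le_tw E le_rfl (Nat.zero_le b)))
    (rr_mono (tw_le_tw E (Nat.zero_le a) le_rfl)))
    (sup_le_sup (rr_tw_le_lamOff_left E hdisj a) (rr_tw_le_lamOff_right E hdisj b)))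
  intro f hf
  rw [Submodule.mem_inf, Submodule.mem_sup] at hf
  obtain ⟨hfab, f₁, hf₁, f₂, hf₂, rfl⟩ := hf
  rw [mem_rr_iff] at hfab
  rw [mem_lamOff_iff] at hf₁ hf₂
  refine Submodule.add_mem_sup ?_ ?_
  · -- `f₁ ∈ L(E + a A₀)`
    rw [mem_rr_iff]
    intro v
    by_cases h₁ : v ∈ S₁
    · have h₂ : v ∉ S₂ := Finset.disjoint_left.mp hdisj h₁
      rw [tw_apply_of_mem₁ E a 0 hdisj h₁]
      have hsum := hfab v
      rw [tw_apply_of_mem₁ E a b hdisj h₁] at hsum
      have h2 : f₂ = 0 ∨ -(E v + a) ≤ v.ord f₂ := by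
        rcases hf₂ v h₂ with h | h
        · exact Or.inl h
        · exact Or.inr (by omega)
      have h2' : -f₂ = 0 ∨ -(E v + a) ≤ v.ord (-f₂) := by
        rw [neg_eq_zero, ord_neg]; exact h2
      have := ord_add_ge v hsum h2'
      rwa [add_neg_cancel_right] at this
    · by_cases h₂ : v ∈ S₂
      · rw [tw_apply_of_mem₂ E a 0 hdisj h₂, Nat.cast_zero, add_zero]
        exact hf₁ v h₁
      · rw [tw_apply_of_not_mem E a 0 h₁ h₂]
        exact hf₁ v h₁
  · -- `f₂ ∈ L(E + b B₀)`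
    rw [mem_rr_iff]
    intro v
    by_cases h₂ : v ∈ S₂
    · have h₁ : v ∉ S₁ := Finset.disjoint_right.mp hdisj h₂
      rw [tw_apply_of_mem₂ E 0 b hdisj h₂]
      have hsum := hfab v
      rw [tw_apply_of_mem₂ E a b hdisj h₂] at hsum
      have h1 : f₁ = 0 ∨ -(E v + b) ≤ v.ord f₁ := by
        rcases hf₁ v h₁ with h | h
        · exact Or.inl h
        · exact Or.inr (by omega)
      have h1' : -f₁ = 0 ∨ -(E v + b) ≤ v.ord (-f₁) := by
        rw [neg_eq_zero, ord_neg]; exact h1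
      have := ord_add_ge v hsum h1'
      rwa [add_comm f₁ f₂, add_neg_cancel_right] at this
    · by_cases h₁ : v ∈ S₁
      · rw [tw_apply_of_mem₁ E 0 b hdisj h₁, Nat.cast_zero, add_zero]
        exact hf₂ v h₂
      · rw [tw_apply_of_not_mem E 0 b h₁ h₂]
        exact hf₂ v h₂

end tw

/-! ### the Čech `H¹` -/

section Curve

variable {γ : ℕ} (hF : IsCurveOfGenus K F γ) {S₁ S₂ : Finset (Place K F)}
include hF

/-- splitting for the twisted divisors -/
theorem rr_tw_sup_eq (hdisj : Disjoint S₁ S₂) {E : Divisor K F}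
    (hE : 2 * (γ : ℤ) - 2 < Divisor.degree E) (k l : ℕ) :
    riemannRochSpace (tw E S₁ S₂ k 0) ⊔ riemannRochSpace (tw E S₁ S₂ 0 l) =
      riemannRochSpace (tw E S₁ S₂ k l) := by
  have h := rr_sup_eq hF (E := E) (A := k • ind S₁) (B := l • ind S₂) hE
    (fun v => by
      rw [Finsupp.smul_apply, nsmul_eq_mul]
      exact mul_nonneg (Int.natCast_nonneg k) (ind_nonneg S₁ v))
    (fun v => by
      rw [Finsupp.smul_apply, nsmul_eq_mul]
      exact mul_nonneg (Int.natCast_nonneg l) (ind_nonneg S₂ v))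
    (fun v => by
      rw [Finsupp.smul_apply, Finsupp.smul_apply]
      by_cases h₁ : v ∈ S₁
      · right
        rw [ind_apply_of_not_mem (Finset.disjoint_left.mp hdisj h₁), smul_zero]
      · left
        rw [ind_apply_of_not_mem h₁, smul_zero])
  have e₁ : tw E S₁ S₂ k 0 = E + k • ind S₁ := by rw [tw, zero_smul, add_zero]
  have e₂ : tw E S₁ S₂ 0 l = E + l • ind S₂ := by rw [tw, zero_smul, add_zero]
  rw [e₁, e₂]
  exact h

/-- `Λ₁₂(E) = L(E + a A₀ + b B₀) + Λ₁(E) + Λ₂(E)` as soon as `E + a A₀` and `E + b B₀` have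
degree `> 2γ - 2` -/
theorem lamOff_union_eq (hdisj : Disjoint S₁ S₂) (E : Divisor K F) {a b : ℕ}
    (ha : 2 * (γ : ℤ) - 2 < Divisor.degree (tw E S₁ S₂ a 0))
    (hb : 2 * (γ : ℤ) - 2 < Divisor.degree (tw E S₁ S₂ 0 b)) :
    lamOff ((S₁ : Set (Place K F)) ∪ S₂) E =
      riemannRochSpace (tw E S₁ S₂ a b) ⊔
        (lamOff (S₁ : Set (Place K F)) E ⊔ lamOff (S₂ : Set (Place K F)) E) := by
  refine le_antisymm ?_ (sup_le (rr_tw_le_lamOff_union E a b)
    (sup_le (lamOff_anti Set.subset_union_left E) (lamOff_anti Set.subset_union_right E)))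
  intro f hf
  obtain ⟨a', b', hf'⟩ := exists_mem_rr_tw_of_mem_lamOff_union E hdisj hf
  -- enlarge to `a + a'`, `b + b'`
  have hf'' : f ∈ riemannRochSpace (tw E S₁ S₂ (a + a') (b + b')) :=
    rr_mono (tw_le_tw E (Nat.le_add_left _ _) (Nat.le_add_left _ _)) hf'
  -- first splitting, around `E + a A₀`
  have s₁ := rr_tw_sup_eq hF hdisj ha a' (b + b')
  rw [tw_tw, tw_tw, tw_tw] at s₁
  simp only [add_zero, zero_add] at s₁
  -- second splitting, around `E + b B₀`
  have s₂ := rr_tw_sup_eq hF hdisj hb a b'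
  rw [tw_tw, tw_tw, tw_tw] at s₂
  simp only [add_zero, zero_add] at s₂
  rw [← s₁, ← s₂, Submodule.mem_sup] at hf''
  obtain ⟨f₁, hf₁, g, hg, rfl⟩ := hf''
  rw [Submodule.mem_sup] at hg
  obtain ⟨f₀, hf₀, f₂, hf₂, rfl⟩ := hg
  have m₁ := rr_tw_le_lamOff_left E hdisj _ hf₁
  have m₂ := rr_tw_le_lamOff_right E hdisj _ hf₂
  have : f₁ + (f₀ + f₂) = f₀ + (f₁ + f₂) := by ring
  rw [this]
  exact Submodule.add_mem_sup hf₀ (Submodule.add_mem_sup m₁ m₂)

/-- **Čech form of Riemann's theorem**: the cokernel of the two-chart Čech differential of `O(E)`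
is finite dimensional of dimension `ℓ(E) - deg E - 1 + γ`. -/
theorem finrank_h1 (hdisj : Disjoint S₁ S₂) (h₁ : S₁.Nonempty) (h₂ : S₂.Nonempty)
    (E : Divisor K F) :
    Module.Finite K (lamOff ((S₁ : Set (Place K F)) ∪ S₂) E ⧸
      (lamOff (S₁ : Set (Place K F)) E ⊔ lamOff (S₂ : Set (Place K F)) E).comap
        (lamOff ((S₁ : Set (Place K F)) ∪ S₂) E).subtype) ∧
    (Module.finrank K (lamOff ((S₁ : Set (Place K F)) ∪ S₂) E ⧸
      (lamOff (S₁ : Set (Place K F)) E ⊔ lamOff (S₂ : Set (Place K F)) E).comap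
        (lamOff ((S₁ : Set (Place K F)) ∪ S₂) E).subtype) : ℤ) =
      Module.finrank K (riemannRochSpace E) - Divisor.degree E - 1 + γ := by
  have := hF.finiteDimensional
  have hdeg := hF.deg_eq_one
  have hc₁ : 1 ≤ S₁.card := h₁.card_pos
  have hc₂ : 1 ≤ S₂.card := h₂.card_pos
  -- a common large twist
  set a : ℕ := (2 * (γ : ℤ) - 1 - Divisor.degree E).toNat with ha_def
  have ha0 : 2 * (γ : ℤ) - 1 - Divisor.degree E ≤ a := Int.self_le_toNat _
  have hac₁ : (a : ℤ) ≤ a * S₁.card := by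
    have : (a : ℤ) * 1 ≤ a * S₁.card :=
      mul_le_mul_of_nonneg_left (by exact_mod_cast hc₁) (Int.natCast_nonneg a)
    simpa using this
  have hac₂ : (a : ℤ) ≤ a * S₂.card := by
    have : (a : ℤ) * 1 ≤ a * S₂.card :=
      mul_le_mul_of_nonneg_left (by exact_mod_cast hc₂) (Int.natCast_nonneg a)
    simpa using this
  have da : Divisor.degree (tw E S₁ S₂ a 0) = Divisor.degree E + a * S₁.card := by
    rw [degree_tw E a 0 hdeg]; simp
  have db : Divisor.degree (tw E S₁ S₂ 0 a) = Divisor.degree E + a * S₂.card := by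
    rw [degree_tw E 0 a hdeg]; simp
  have dab := degree_tw E (S₁ := S₁) (S₂ := S₂) a a hdeg
  have ha : 2 * (γ : ℤ) - 2 < Divisor.degree (tw E S₁ S₂ a 0) := by rw [da]; omega
  have hb : 2 * (γ : ℤ) - 2 < Divisor.degree (tw E S₁ S₂ 0 a) := by rw [db]; omega
  have hab : 2 * (γ : ℤ) - 2 < Divisor.degree (tw E S₁ S₂ a a) := by rw [dab]; omega
  -- second isomorphism theorem
  obtain ⟨hfin, hrank⟩ := finrank_quotient_sup (riemannRochSpace (tw E S₁ S₂ a a))
    (lamOff (S₁ : Set (Place K F)) E ⊔ lamOff (S₂ : Set (Place K F)) E)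
    (lamOff ((S₁ : Set (Place K F)) ∪ S₂) E) (lamOff_union_eq hF hdisj E ha hb)
  refine ⟨hfin, ?_⟩
  rw [rr_tw_inf_sup E hdisj a a] at hrank
  have hsum := Submodule.finrank_sup_add_finrank_inf_eq (riemannRochSpace (tw E S₁ S₂ a 0))
    (riemannRochSpace (tw E S₁ S₂ 0 a))
  rw [rr_tw_inf E hdisj a a] at hsum
  have ea := hF.riemann_eq _ ha
  have eb := hF.riemann_eq _ hb
  have eab := hF.riemann_eq _ hab
  rw [da] at ea
  rw [db] at eb
  rw [dab] at eab
  have hrank' : (Module.finrank K (lamOff ((S₁ : Set (Place K F)) ∪ S₂) E ⧸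
      (lamOff (S₁ : Set (Place K F)) E ⊔ lamOff (S₂ : Set (Place K F)) E).comap
        (lamOff ((S₁ : Set (Place K F)) ∪ S₂) E).subtype) : ℤ) +
      Module.finrank K ↥(riemannRochSpace (tw E S₁ S₂ a 0) ⊔ riemannRochSpace (tw E S₁ S₂ 0 a)) =
      Module.finrank K (riemannRochSpace (tw E S₁ S₂ a a)) := by exact_mod_cast hrank
  have hsum' : (Module.finrank K
      ↥(riemannRochSpace (tw E S₁ S₂ a 0) ⊔ riemannRochSpace (tw E S₁ S₂ 0 a)) : ℤ) +
      Module.finrank K (riemannRochSpace E) = Module.finrank K (riemannRochSpace (tw E S₁ S₂ a 0)) +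
      Module.finrank K (riemannRochSpace (tw E S₁ S₂ 0 a)) := by exact_mod_cast hsum
  omega

/-- the Čech differential of a non-special divisor is surjective -/
theorem lamOff_union_eq_sup (hdisj : Disjoint S₁ S₂) (h₁ : S₁.Nonempty) (h₂ : S₂.Nonempty)
    {E : Divisor K F}
    (hE : (Module.finrank K (riemannRochSpace E) : ℤ) = Divisor.degree E + 1 - γ) :
    lamOff ((S₁ : Set (Place K F)) ∪ S₂) E =
      lamOff (S₁ : Set (Place K F)) E ⊔ lamOff (S₂ : Set (Place K F)) E := by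
  obtain ⟨hfin, hrank⟩ := finrank_h1 hF hdisj h₁ h₂ E
  have h0 : Module.finrank K (lamOff ((S₁ : Set (Place K F)) ∪ S₂) E ⧸
      (lamOff (S₁ : Set (Place K F)) E ⊔ lamOff (S₂ : Set (Place K F)) E).comap
        (lamOff ((S₁ : Set (Place K F)) ∪ S₂) E).subtype) = 0 := by
    have : (Module.finrank K (lamOff ((S₁ : Set (Place K F)) ∪ S₂) E ⧸
      (lamOff (S₁ : Set (Place K F)) E ⊔ lamOff (S₂ : Set (Place K F)) E).comap
        (lamOff ((S₁ : Set (Place K F)) ∪ S₂) E).subtype) : ℤ) = 0 := by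
      rw [hrank, hE]; ring
    exact_mod_cast this
  have hss := Module.finrank_zero_iff.mp h0
  have htop := Submodule.Quotient.subsingleton_iff.mp hss
  refine le_antisymm ?_
    (sup_le (lamOff_anti Set.subset_union_left E) (lamOff_anti Set.subset_union_right E))
  intro f hf
  have : (⟨f, hf⟩ : lamOff ((S₁ : Set (Place K F)) ∪ S₂) E) ∈
      (lamOff (S₁ : Set (Place K F)) E ⊔ lamOff (S₂ : Set (Place K F)) E).comap
        (lamOff ((S₁ : Set (Place K F)) ∪ S₂) E).subtype := by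
    rw [htop]; exact Submodule.mem_top
  exact this

end Curve

end Fermat.Agent.S26lib.CechRR
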