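/-
S26lib / CechRR / NonSpecial (helper9).
* `exists_nonspecial` : on a curve of genus `γ` there is an effective divisor `D₀` of degree `γ` with
  `ℓ(D₀) = 1`, whose support avoids any given finite set of places;
* `exists_poles_zeros` : the two-chart cover `{x ≠ ∞}`, `{x ≠ 0}` given by a non-constant function;
* `exists_nonspecial_cech` : for such a cover and such a `D₀` the Čech differential is surjective.
-/
import Fermat.Agent.S26lib.CechRR.H1

set_option autoImplicit false

noncomputable section

namespace Fermat.Agent.S26lib.CechRR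

open AlgebraicCurve Fermat.Agent.S18lib Fermat.Agent.S18lib.Cech

variable {K F : Type*} [Field K] [Field F] [Algebra K F]

/-- a function in `L(D + P)` but not in `L(D)` has a pole of order exactly `D P + 1` at `P` -/
theorem ord_eq_of_mem_of_not_mem {D : Divisor K F} {P : Place K F} {f : F}
    (hf : f ∈ riemannRochSpace (D + Finsupp.single P 1)) (hfD : f ∉ riemannRochSpace D) :
    f ≠ 0 ∧ P.ord f = -(D P + 1) := by
  classical
  have hf0 : f ≠ 0 := by
    rintro rfl
    exact hfD (Submodule.zero_mem _)
  refine ⟨hf0, ?_⟩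
  rw [mem_rr_of_ne hf0] at hf
  have hP := hf P
  rw [Finsupp.add_apply, Finsupp.single_apply, if_pos rfl] at hP
  by_contra hne
  apply hfD
  rw [mem_rr_of_ne hf0]
  intro v
  by_cases hv : v = P
  · subst hv
    omega
  · have := hf v
    rwa [Finsupp.add_apply, Finsupp.single_apply, if_neg (Ne.symm hv), add_zero] at this

section Curve

variable {γ : ℕ} (hF : IsCurveOfGenus K F γ)
include hF

theorem finrank_rr_zero : Module.finrank K (riemannRochSpace (0 : Divisor K F)) = 1 := by
  rw [hF.riemannRochSpace_zero]
  exact Subalgebra.finrank_bot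

/-- if adding any place outside `T` to `D` increases `L`, then `ℓ(D + ∑_Q P) ≥ ℓ(D) + |Q|` for all
finite `Q` outside `T` -/
theorem finrank_add_ind_ge {D : Divisor K F} {T : Finset (Place K F)}
    (h : ∀ P : Place K F, P ∉ T → riemannRochSpace (D + Finsupp.single P 1) ≠ riemannRochSpace D)
    (Q : Finset (Place K F)) (hQ : ∀ P ∈ Q, P ∉ T) :
    Module.finrank K (riemannRochSpace D) + Q.card ≤
      Module.finrank K (riemannRochSpace (D + ind Q)) := by
  classical
  have := hF.finiteDimensional
  induction Q using Finset.induction_on with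
  | empty =>
    have : ind (∅ : Finset (Place K F)) = 0 := by rw [ind, Finset.sum_empty]
    rw [this, add_zero, Finset.card_empty, add_zero]
  | insert P Q hPQ ih =>
    have ih' := ih fun P' hP' => hQ P' (Finset.mem_insert_of_mem hP')
    have hPT : P ∉ T := hQ P (Finset.mem_insert_self P Q)
    -- a function with a pole at `P` exactly
    have hlt : riemannRochSpace D < riemannRochSpace (D + Finsupp.single P 1) := by
      refine lt_of_le_of_ne (rr_mono fun v => ?_) (Ne.symm (h P hPT))
      rw [Finsupp.add_apply, Finsupp.single_apply]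
      split_ifs <;> omega
    obtain ⟨f, hf, hfD⟩ := SetLike.exists_of_lt hlt
    obtain ⟨hf0, hord⟩ := ord_eq_of_mem_of_not_mem hf hfD
    rw [ind_insert hPQ, ← add_assoc]
    have hlt' : riemannRochSpace (D + ind Q) <
        riemannRochSpace (D + ind Q + Finsupp.single P 1) := by
      refine lt_of_le_of_ne (rr_mono fun v => ?_) fun heq => ?_
      · rw [Finsupp.add_apply (D + ind Q), Finsupp.single_apply]
        split_ifs <;> omega
      · have hmem : f ∈ riemannRochSpace (D + ind Q + Finsupp.single P 1) := by
          refine rr_mono (fun v => ?_) hf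
          have := ind_nonneg Q v
          simp only [Finsupp.add_apply]
          omega
        rw [← heq, mem_rr_of_ne hf0] at hmem
        have := hmem P
        rw [Finsupp.add_apply, ind_apply_of_not_mem hPQ, hord] at this
        omega
    have := Submodule.finrank_lt_finrank_of_lt hlt'
    rw [Finset.card_insert_of_notMem hPQ]
    omega

/-- the inductive step: an effective divisor of degree `< γ` with `ℓ = 1` can be enlarged by a place
outside `T` keeping `ℓ = 1` -/
theorem exists_place_finrank_eq_one {D : Divisor K F} (hD : ∀ v, 0 ≤ D v)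
    (hdeg : Divisor.degree D < γ) (hl : Module.finrank K (riemannRochSpace D) = 1)
    (T : Finset (Place K F)) :
    ∃ P : Place K F, P ∉ T ∧ Module.finrank K (riemannRochSpace (D + Finsupp.single P 1)) = 1 := by
  classical
  have := hF.finiteDimensional
  have := hF.infinite_places
  by_contra hcon
  push Not at hcon
  have h : ∀ P : Place K F, P ∉ T →
      riemannRochSpace (D + Finsupp.single P 1) ≠ riemannRochSpace D := by
    intro P hP heq
    apply hcon P hP
    rw [heq, hl]
  -- `2γ` places outside `T`
  obtain ⟨T', hTT', hcard⟩ := Infinite.exists_superset_card_eq T (T.card + 2 * γ)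
    (Nat.le_add_right _ _)
  set Q := T' \ T with hQdef
  have hQcard : Q.card = 2 * γ := by
    rw [hQdef, Finset.card_sdiff_of_subset hTT', hcard]
    omega
  have hQ : ∀ P ∈ Q, P ∉ T := fun P hP => (Finset.mem_sdiff.mp hP).2
  have hge := finrank_add_ind_ge hF h Q hQ
  have hd0 := degree_nonneg_of_nonneg hD
  have hdeg' : Divisor.degree (D + ind Q) = Divisor.degree D + 2 * γ := by
    rw [map_add, degree_ind hF.deg_eq_one, hQcard]
    push_cast
    ring
  have heq := hF.riemann_eq (D + ind Q) (by rw [hdeg']; omega)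
  rw [hdeg'] at heq
  rw [hl, hQcard] at hge
  have : ((1 + 2 * γ : ℕ) : ℤ) ≤ Module.finrank K (riemannRochSpace (D + ind Q)) := by
    exact_mod_cast hge
  push_cast at this
  omega

/-- **existence of non-special effective divisors of degree `γ`** with support off a finite set -/
theorem exists_nonspecial (T : Finset (Place K F)) :
    ∃ D₀ : Divisor K F, (∀ v, 0 ≤ D₀ v) ∧ Divisor.degree D₀ = γ ∧
      Module.finrank K (riemannRochSpace D₀) = 1 ∧ ∀ v ∈ T, D₀ v = 0 := by
  classical
  suffices H : ∀ i : ℕ, i ≤ γ → ∃ D : Divisor K F, (∀ v, 0 ≤ D v) ∧ Divisor.degree D = i ∧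
      Module.finrank K (riemannRochSpace D) = 1 ∧ ∀ v ∈ T, D v = 0 from H γ le_rfl
  intro i
  induction i with
  | zero =>
    intro _
    exact ⟨0, fun v => le_rfl, by simp, finrank_rr_zero hF, fun v _ => rfl⟩
  | succ i ih =>
    intro hi
    obtain ⟨D, hD, hdeg, hl, hT⟩ := ih (Nat.le_of_succ_le hi)
    obtain ⟨P, hPT, hP⟩ := exists_place_finrank_eq_one hF hD
      (by rw [hdeg]; exact_mod_cast Nat.lt_of_succ_le hi) hl T
    refine ⟨D + Finsupp.single P 1, fun v => ?_, ?_, hP, fun v hv => ?_⟩
    · rw [Finsupp.add_apply, Finsupp.single_apply]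
      have := hD v
      split_ifs <;> omega
    · rw [map_add, hdeg, Divisor.degree_single, hF.deg_eq_one P]
      push_cast
      ring
    · rw [Finsupp.add_apply, hT v hv, Finsupp.single_apply, if_neg, add_zero]
      rintro rfl
      exact hPT hv

omit hF in
/-- a non-special divisor in the sense of `exists_nonspecial` satisfies Riemann's equality -/
theorem finrank_eq_of_nonspecial {D₀ : Divisor K F} (hdeg : Divisor.degree D₀ = γ)
    (hl : Module.finrank K (riemannRochSpace D₀) = 1) :
    (Module.finrank K (riemannRochSpace D₀) : ℤ) = Divisor.degree D₀ + 1 - γ := by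
  rw [hl, hdeg]
  push_cast
  ring

/-- the cover `{x ≠ ∞}`, `{x ≠ 0}` of the curve defined by a non-constant function `x`: the sets of
poles and of zeros of `x` are finite, nonempty and disjoint -/
theorem exists_poles_zeros {x : F} (hx : x ∉ Set.range (algebraMap K F)) :
    ∃ S₁ S₂ : Finset (Place K F), (∀ P, P ∈ S₁ ↔ P.ord x < 0) ∧ (∀ P, P ∈ S₂ ↔ 0 < P.ord x) ∧
      Disjoint S₁ S₂ ∧ S₁.Nonempty ∧ S₂.Nonempty := by
  classical
  have := hF.hasPrincipalDivisors
  have hx0 : x ≠ 0 := by
    rintro rfl
    exact hx ⟨0, map_zero _⟩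
  -- a function without poles is constant
  have hconst : ∀ y : F, (∀ P : Place K F, 0 ≤ P.ord y) → y ∈ Set.range (algebraMap K F) := by
    intro y hy
    have hmem : y ∈ riemannRochSpace (0 : Divisor K F) := by
      rw [mem_rr_iff]
      intro v
      right
      rw [Finsupp.zero_apply, neg_zero]
      exact hy v
    rw [hF.riemannRochSpace_zero] at hmem
    obtain ⟨c, hc⟩ := Algebra.mem_bot.mp hmem
    exact ⟨c, hc⟩
  refine ⟨(divOf (K := K) x).support.filter fun P => P.ord x < 0,
    (divOf (K := K) x).support.filter fun P => 0 < P.ord x, fun P => ?_, fun P => ?_, ?_, ?_, ?_⟩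
  · rw [Finset.mem_filter, Finsupp.mem_support_iff, divOf_apply hx0]
    exact ⟨fun h => h.2, fun h => ⟨by omega, h⟩⟩
  · rw [Finset.mem_filter, Finsupp.mem_support_iff, divOf_apply hx0]
    exact ⟨fun h => h.2, fun h => ⟨by omega, h⟩⟩
  · rw [Finset.disjoint_left]
    intro P h₁ h₂
    rw [Finset.mem_filter] at h₁ h₂
    omega
  · by_contra hne
    rw [Finset.not_nonempty_iff_eq_empty] at hne
    apply hx
    apply hconst x
    intro P
    by_contra hP
    have : P ∈ (divOf (K := K) x).support.filter fun P => P.ord x < 0 := by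
      rw [Finset.mem_filter, Finsupp.mem_support_iff, divOf_apply hx0]
      exact ⟨by omega, by omega⟩
    rw [hne] at this
    exact Finset.notMem_empty P this
  · by_contra hne
    rw [Finset.not_nonempty_iff_eq_empty] at hne
    have hinv : x⁻¹ ∈ Set.range (algebraMap K F) := by
      apply hconst x⁻¹
      intro P
      rw [P.ord_inv]
      by_contra hP
      have : P ∈ (divOf (K := K) x).support.filter fun P => 0 < P.ord x := by
        rw [Finset.mem_filter, Finsupp.mem_support_iff, divOf_apply hx0]
        exact ⟨by omega, by omega⟩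
      rw [hne] at this
      exact Finset.notMem_empty P this
    obtain ⟨c, hc⟩ := hinv
    apply hx
    refine ⟨c⁻¹, ?_⟩
    rw [map_inv₀, hc, inv_inv]

/-- **Summary for the relative-curve lifting argument**: for the cover `{x ≠ ∞}`, `{x ≠ 0}` and every
finite set `T` of places there is an effective divisor `D₀` of degree `γ` off `T` with `L(D₀) = K`
for which the two-chart Čech differential `Λ₁(D₀) ⊕ Λ₂(D₀) → Λ₁₂(D₀)` is surjective. -/
theorem exists_nonspecial_cech {x : F} (hx : x ∉ Set.range (algebraMap K F))
    (T : Finset (Place K F)) :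
    ∃ D₀ : Divisor K F, (∀ v, 0 ≤ D₀ v) ∧ Divisor.degree D₀ = γ ∧
      riemannRochSpace D₀ = (⊥ : Subalgebra K F).toSubmodule ∧ (∀ v ∈ T, D₀ v = 0) ∧
      lamOff {P : Place K F | P.ord x ≠ 0} D₀ =
        lamOff {P : Place K F | P.ord x < 0} D₀ ⊔ lamOff {P : Place K F | 0 < P.ord x} D₀ := by
  have := hF.finiteDimensional
  obtain ⟨S₁, S₂, hS₁, hS₂, hdisj, hne₁, hne₂⟩ := exists_poles_zeros hF hx
  obtain ⟨D₀, hD₀, hdeg, hl, hT⟩ := exists_nonspecial hF T
  refine ⟨D₀, hD₀, hdeg, ?_, hT, ?_⟩
  · -- `L(D₀) ⊇ L(0) = K` and both have dimension one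
    have hle : riemannRochSpace (0 : Divisor K F) ≤ riemannRochSpace D₀ :=
      rr_mono fun v => by rw [Finsupp.zero_apply]; exact hD₀ v
    rw [← hF.riemannRochSpace_zero]
    exact (Submodule.eq_of_le_of_finrank_eq hle (by rw [finrank_rr_zero hF, hl])).symm
  · have e₁ : {P : Place K F | P.ord x < 0} = (S₁ : Set (Place K F)) := by
      ext P; simp [hS₁]
    have e₂ : {P : Place K F | 0 < P.ord x} = (S₂ : Set (Place K F)) := by
      ext P; simp [hS₂]
    have e₁₂ : {P : Place K F | P.ord x ≠ 0} = (S₁ : Set (Place K F)) ∪ S₂ := by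
      ext P
      simp only [Set.mem_ofPred_eq, Set.mem_union, Finset.mem_coe, hS₁, hS₂]
      omega
    rw [e₁, e₂, e₁₂]
    exact lamOff_union_eq_sup hF hdisj hne₁ hne₂ (finrank_eq_of_nonspecial hdeg hl)

end Curve

end Fermat.Agent.S26lib.CechRR
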