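/-
S26lib / CechRR / Twist (helper9).
The twist `D₀ - p` of a non-special divisor `D₀` of degree `γ` (`L(D₀) = K`) by a point `p` off its
support: `L(D₀ - p) = 0` and the two-chart Čech differential of `D₀ - p` is still surjective
(`H⁰ = H¹ = 0`).

* `cech_of_riemann` : Čech surjectivity for the cover of a non-constant function and any divisor
  satisfying Riemann's equality `ℓ(E) = deg E + 1 - γ`;
* `rr_sub_single_eq_bot`, `exists_nonspecial_cech_twist`.
-/
import Fermat.Agent.S26lib.CechRR.NonSpecial

set_option autoImplicit false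

noncomputable section

namespace Fermat.Agent.S26lib.CechRR

open AlgebraicCurve Fermat.Agent.S18lib Fermat.Agent.S18lib.Cech

variable {K F : Type*} [Field K] [Field F] [Algebra K F]

/-- twisting a divisor with `L(D₀) = K` by a point off its support kills all sections -/
theorem rr_sub_single_eq_bot {D₀ : Divisor K F}
    (hL : riemannRochSpace D₀ = (⊥ : Subalgebra K F).toSubmodule) {p : Place K F}
    (hp : D₀ p = 0) : riemannRochSpace (D₀ - Finsupp.single p 1) = ⊥ := by
  classical
  rw [eq_bot_iff]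
  intro f hf
  rw [Submodule.mem_bot]
  by_contra hf0
  have hle : riemannRochSpace (D₀ - Finsupp.single p 1) ≤ riemannRochSpace D₀ := by
    refine rr_mono fun v => ?_
    rw [Finsupp.sub_apply, Finsupp.single_apply]
    split_ifs <;> omega
  have hfD : f ∈ riemannRochSpace D₀ := hle hf
  rw [hL] at hfD
  obtain ⟨c, rfl⟩ := Algebra.mem_bot.mp hfD
  rw [mem_rr_of_ne hf0] at hf
  have := hf p
  rw [Finsupp.sub_apply, Finsupp.single_apply, if_pos rfl, hp, ord_const] at this
  omega

section Curve

variable {γ : ℕ} (hF : IsCurveOfGenus K F γ)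
include hF

/-- Čech surjectivity for the cover `{x ≠ ∞}`, `{x ≠ 0}` and any divisor satisfying Riemann's
equality -/
theorem cech_of_riemann {x : F} (hx : x ∉ Set.range (algebraMap K F)) {E : Divisor K F}
    (hE : (Module.finrank K (riemannRochSpace E) : ℤ) = Divisor.degree E + 1 - γ) :
    lamOff {P : Place K F | P.ord x ≠ 0} E =
      lamOff {P : Place K F | P.ord x < 0} E ⊔ lamOff {P : Place K F | 0 < P.ord x} E := by
  obtain ⟨S₁, S₂, hS₁, hS₂, hdisj, hne₁, hne₂⟩ := exists_poles_zeros hF hx
  have e₁ : {P : Place K F | P.ord x < 0} = (S₁ : Set (Place K F)) := by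
    ext P; simp [hS₁]
  have e₂ : {P : Place K F | 0 < P.ord x} = (S₂ : Set (Place K F)) := by
    ext P; simp [hS₂]
  have e₁₂ : {P : Place K F | P.ord x ≠ 0} = (S₁ : Set (Place K F)) ∪ S₂ := by
    ext P
    simp only [Set.mem_ofPred_eq, Set.mem_union, Finset.mem_coe, hS₁, hS₂]
    omega
  rw [e₁, e₂, e₁₂]
  exact lamOff_union_eq_sup hF hdisj hne₁ hne₂ hE

/-- **non-special divisor with its twists**: as `exists_nonspecial_cech`, and moreover for every
place `p` off the support of `D₀` the twist `D₀ - p` has no sections and a surjective Čech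
differential -/
theorem exists_nonspecial_cech_twist {x : F} (hx : x ∉ Set.range (algebraMap K F))
    (T : Finset (Place K F)) :
    ∃ D₀ : Divisor K F, (∀ v, 0 ≤ D₀ v) ∧ Divisor.degree D₀ = γ ∧
      riemannRochSpace D₀ = (⊥ : Subalgebra K F).toSubmodule ∧ (∀ v ∈ T, D₀ v = 0) ∧
      lamOff {P : Place K F | P.ord x ≠ 0} D₀ =
        lamOff {P : Place K F | P.ord x < 0} D₀ ⊔ lamOff {P : Place K F | 0 < P.ord x} D₀ ∧
      ∀ p : Place K F, D₀ p = 0 →
        riemannRochSpace (D₀ - Finsupp.single p 1) = ⊥ ∧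
        lamOff {P : Place K F | P.ord x ≠ 0} (D₀ - Finsupp.single p 1) =
          lamOff {P : Place K F | P.ord x < 0} (D₀ - Finsupp.single p 1) ⊔
            lamOff {P : Place K F | 0 < P.ord x} (D₀ - Finsupp.single p 1) := by
  obtain ⟨D₀, hD₀, hdeg, hL, hT, hcech⟩ := exists_nonspecial_cech hF hx T
  refine ⟨D₀, hD₀, hdeg, hL, hT, hcech, fun p hp => ?_⟩
  have hbot := rr_sub_single_eq_bot hL hp
  refine ⟨hbot, cech_of_riemann hF hx ?_⟩
  rw [hbot, finrank_bot, map_sub, hdeg, Divisor.degree_single, hF.deg_eq_one p]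
  push_cast
  ring

end Curve

end Fermat.Agent.S26lib.CechRR
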